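import Mathlib

/-!
# S16 / WP U2: finiteness of reductions of a finitely generated `ℤ`-module
-/

set_option autoImplicit false

namespace Fermat.Agent.S16.H300

/-- An additive map from a finitely generated abelian group to a `ZMod m`-module has finite
range. -/
theorem finite_range_zmod {M : Type*} [AddCommGroup M] [Module.Finite ℤ M] (m : ℕ) [NeZero m]
    {X : Type*} [AddCommGroup X] [Module (ZMod m) X] (Φ : M →+ X) : (Set.range Φ).Finite := by
  obtain ⟨n, s, hs⟩ := Module.Finite.exists_fin (R := ℤ) (M := M)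
  let Ψ : (Fin n → ZMod m) → X := fun c => ∑ i, c i • Φ (s i)
  refine (Set.finite_range Ψ).subset ?_
  rintro _ ⟨x, rfl⟩
  have hx : x ∈ Submodule.span ℤ (Set.range s) := by rw [hs]; exact Submodule.mem_top
  obtain ⟨c, rfl⟩ := (Submodule.mem_span_range_iff_exists_fun ℤ).mp hx
  refine ⟨fun i => (c i : ZMod m), ?_⟩
  simp only [Ψ, map_sum, map_zsmul]
  refine Finset.sum_congr rfl fun i _ => ?_
  exact Int.cast_smul_eq_zsmul (ZMod m) (c i) (Φ (s i))

end Fermat.Agent.S16.H300
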