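import Fermat.Agent.S16.H300.Pigeonhole
import Fermat.Agent.S16.H300.Finite
import Fermat.Agent.S23.Cap.Basic
import Fermat.Agent.S22T.DeltaInt
import Fermat.Prelude.Thm_CuspForm_intLattice_fg
import Fermat.Prelude.Thm_ModularFormClass_qCoeff_heckeT
import Fermat.Prelude.Def_ModularForm_HeckeOperatorForms
import Fermat.Prelude.Thm_CuspForm_mem_intLattice_of_coe_eq_heckeT

/-!
# S16 / WP U2 (bridge): denominators of constant terms divide 24

If `G ∈ M₂(Γ₀(p))` has integral `q`-expansion, `ℓ ∤ a₀(G)` and `ℓ^a ∣ a_n(G)` for all `n ≥ 1`,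
then `ℓ^a ∣ 24`.
-/

set_option autoImplicit false

namespace Fermat.Agent.S16.H300

open UpperHalfPlane ModularForm ModularFormClass MatrixGroups CongruenceSubgroup
open Fermat.Agent.S23.Cap

noncomputable section

/-- integral coefficients of an element of the integral lattice -/
theorem exists_int_coeff {N : ℕ} {k : ℤ} (f : CuspForm (Gamma0 N) k)
    (hf : f ∈ CuspForm.intLattice N k) (n : ℕ) : ∃ m : ℤ, qCoeff f n = (m : ℂ) :=
  (P2MW.S_CuspForm_intLattice_fg.W3WsD.mem_intLattice_iff f).mp hf n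

/-- the integral coefficient sequence of an element of the integral lattice -/
def coeffZ (N : ℕ) (k : ℤ) (f : CuspForm.intLattice N k) (n : ℕ) : ℤ :=
  (exists_int_coeff f.1 f.2 n).choose

theorem coeffZ_spec (N : ℕ) (k : ℤ) (f : CuspForm.intLattice N k) (n : ℕ) :
    qCoeff (f : CuspForm (Gamma0 N) k) n = (coeffZ N k f n : ℂ) :=
  (exists_int_coeff f.1 f.2 n).choose_spec

theorem coeffZ_eq_of (N : ℕ) (k : ℤ) (f : CuspForm.intLattice N k) (n : ℕ) (m : ℤ)
    (h : qCoeff (f : CuspForm (Gamma0 N) k) n = (m : ℂ)) : coeffZ N k f n = m := by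
  have := coeffZ_spec N k f n
  rw [h] at this
  exact_mod_cast this.symm

theorem coeffZ_add (N : ℕ) (k : ℤ) (f g : CuspForm.intLattice N k) (n : ℕ) :
    coeffZ N k (f + g) n = coeffZ N k f n + coeffZ N k g n := by
  apply coeffZ_eq_of
  have := P2MW.S_CuspForm_intLattice_fg.W3WsD.qCoeff_add (f : CuspForm (Gamma0 N) k)
    (g : CuspForm (Gamma0 N) k) n
  rw [Submodule.coe_add, this, coeffZ_spec, coeffZ_spec]
  push_cast
  rfl

theorem coeffZ_zero (N : ℕ) (k : ℤ) (n : ℕ) :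
    coeffZ N k (0 : CuspForm.intLattice N k) n = 0 := by
  apply coeffZ_eq_of
  rw [Submodule.coe_zero, P2MW.S_CuspForm_intLattice_fg.W3WsD.qCoeff_zero']
  simp

/-- reduction modulo `m` of the coefficient sequence, as an additive map -/
def redHom (N : ℕ) (k : ℤ) (m : ℕ) : CuspForm.intLattice N k →+ (ℕ → ZMod m) where
  toFun f n := (coeffZ N k f n : ZMod m)
  map_zero' := by
    funext n
    simp [coeffZ_zero]
  map_add' f g := by
    funext n
    simp [coeffZ_add]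

theorem finite_range_redHom (N : ℕ) [NeZero N] (k : ℤ) (m : ℕ) [NeZero m] :
    (Set.range (redHom N k m)).Finite := by
  have : Module.Finite ℤ (CuspForm.intLattice N k) :=
    Module.Finite.iff_fg.mpr (CuspForm.intLattice_fg N k)
  exact finite_range_zmod m (redHom N k m)

end

end Fermat.Agent.S16.H300

namespace Fermat.Agent.S16.H300

open UpperHalfPlane ModularForm ModularFormClass MatrixGroups CongruenceSubgroup
open Fermat.Agent.S23.Cap Fermat.Agent.S22T

noncomputable section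

/-- `q`-coefficients of a Hecke transform of a cusp form, in terms of `hT`. -/
theorem qCoeff_heckeTLin_int {N : ℕ} [NeZero N] (k : ℤ) (w : ℕ) (hkw : k = (w : ℤ))
    (hw : 1 ≤ w) {r : ℕ} (hr : r.Prime)
    (hrN : ¬ r ∣ N) (f : CuspForm (Gamma0 N) k) (a : ℕ → ℤ)
    (ha : ∀ n, qCoeff f n = (a n : ℂ)) (n : ℕ) :
    qCoeff (CuspForm.heckeTLin k hr hrN f) n = ((hT w r a n : ℤ) : ℂ) := by
  subst hkw
  rw [CuspForm.coe_heckeTLin_apply,
    ModularFormClass.qCoeff_heckeT f (CongruenceSubgroup.one_mem_strictPeriods_Gamma0 N)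
      hr.ne_zero n]
  unfold ModularForm.coeffHeckeT hT
  rw [ha, ha]
  have e : ((w : ℤ) - 1) = ((w - 1 : ℕ) : ℤ) := by omega
  rw [e, zpow_natCast]
  split_ifs <;> push_cast <;> ring

/-- membership of a Hecke transform in the integral lattice -/
theorem heckeTLin_mem_intLattice {N : ℕ} [NeZero N] (k : ℤ) (hk : 1 ≤ k) {r : ℕ} (hr : r.Prime)
    (hrN : ¬ r ∣ N) (f : CuspForm (Gamma0 N) k) (hf : f ∈ CuspForm.intLattice N k) :
    CuspForm.heckeTLin k hr hrN f ∈ CuspForm.intLattice N k :=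
  CuspForm.mem_intLattice_of_coe_eq_heckeT hk hr.ne_zero
    (CuspForm.coe_heckeTLin_apply k hr hrN f) hf

/-- **U2 at the level of forms.** -/
theorem prime_pow_dvd_24 (p : ℕ) (hp : p.Prime) (G : ModularForm (Gamma0 p) 2)
    (g : ℕ → ℤ) (hg : ∀ n, qCoeff G n = (g n : ℂ))
    {ℓ a : ℕ} (hℓ : ℓ.Prime) (h0 : ¬ (ℓ : ℤ) ∣ g 0)
    (hpos : ∀ n, 1 ≤ n → ((ℓ ^ a : ℕ) : ℤ) ∣ g n) : ℓ ^ a ∣ 24 := by
  have : NeZero p := ⟨hp.ne_zero⟩
  have : NeZero (ℓ ^ a) := ⟨pow_ne_zero _ hℓ.ne_zero⟩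
  -- `Δ` at level `p`
  have hΔ : IsCF (G0 p) 12 (ModularForm.discriminant : ℍ → ℂ) :=
    IsCF.of_levelOne p ⟨CuspForm.discriminant, rfl⟩
  obtain ⟨Dp, hDp⟩ := hΔ
  have hDcoef : ∀ n, qCoeff Dp n = (tau n : ℂ) := by
    intro n
    unfold ModularFormClass.qCoeff
    rw [hDp]
    exact qExpansion_discriminant_coeff n
  have hDmem : Dp ∈ CuspForm.intLattice p 12 :=
    (P2MW.S_CuspForm_intLattice_fg.W3WsD.mem_intLattice_iff Dp).mpr fun n => ⟨tau n, hDcoef n⟩
  -- `F1 = Δ * G`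
  have hF1 : IsCF (G0 p) 14 ((ModularForm.discriminant : ℍ → ℂ) * ⇑G) :=
    (IsCF.mul_isMF ⟨Dp, hDp⟩ ⟨G, rfl⟩).congr_weight (by norm_num)
  obtain ⟨F1, hF1c⟩ := hF1
  set F : ℕ → ℤ := fun n => ∑ x ∈ Finset.HasAntidiagonal.antidiagonal n, tau x.1 * g x.2 with hFdef
  have hFcoef : ∀ n, qCoeff F1 n = (F n : ℂ) := by
    intro n
    unfold ModularFormClass.qCoeff
    rw [hF1c]
    have hmul := qx_mul p (IsCF.isMF ⟨Dp, hDp⟩) (⟨G, rfl⟩ : IsMF (G0 p) 2 ⇑G)
    rw [show qExpansion 1 ((ModularForm.discriminant : ℍ → ℂ) * ⇑G) =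
      qx ((ModularForm.discriminant : ℍ → ℂ) * ⇑G) from rfl, hmul, PowerSeries.coeff_mul]
    rw [hFdef]
    push_cast
    refine Finset.sum_congr rfl fun x _ => ?_
    rw [show (PowerSeries.coeff x.1) (qx (ModularForm.discriminant : ℍ → ℂ)) = (tau x.1 : ℂ) from
      qExpansion_discriminant_coeff x.1]
    rw [← hg]
    rfl
  have hFmem : F1 ∈ CuspForm.intLattice p 14 :=
    (P2MW.S_CuspForm_intLattice_fg.W3WsD.mem_intLattice_iff F1).mpr fun n => ⟨F n, hFcoef n⟩
  -- the congruence `F ≡ g 0 • τ`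
  have hcong : ∀ n, ((ℓ ^ a : ℕ) : ℤ) ∣ F n - g 0 * tau n := by
    intro n
    have h1 : g 0 * tau n = ∑ x ∈ Finset.HasAntidiagonal.antidiagonal n, tau x.1 * (if x.2 = 0 then g 0 else 0) := by
      rw [Finset.Nat.sum_antidiagonal_eq_sum_range_succ (fun i j => tau i * (if j = 0 then g 0 else 0))]
      rw [Finset.sum_eq_single n]
      · simp [mul_comm]
      · intro b hb hbn
        have : n - b ≠ 0 := by
          have := Finset.mem_range.mp hb
          omega
        simp [this]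
      · intro h
        exact absurd (Finset.mem_range.mpr (Nat.lt_succ_self n)) h
    rw [h1, hFdef, ← Finset.sum_sub_distrib]
    refine Finset.dvd_sum fun x _ => ?_
    rw [← mul_sub]
    refine Dvd.dvd.mul_left ?_ _
    by_cases hx : x.2 = 0
    · simp [hx]
    · simp only [hx, if_false, sub_zero]
      exact hpos _ (Nat.one_le_iff_ne_zero.mpr hx)
  -- the finite set
  set 𝓛 : Set (ℕ → ZMod (ℓ ^ a)) :=
    Set.image2 (fun x y => x - (g 0 : ZMod (ℓ ^ a)) • y) (Set.range (redHom p 14 (ℓ ^ a)))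
      (Set.range (redHom p 12 (ℓ ^ a))) with h𝓛def
  have h𝓛 : 𝓛.Finite :=
    Set.Finite.image2 _ (finite_range_redHom p 14 (ℓ ^ a)) (finite_range_redHom p 12 (ℓ ^ a))
  refine pigeonhole hℓ p 12 (by norm_num) tau F (g 0) h0 tau_one hcong 𝓛 h𝓛 ?_
  intro r hr hrp hrℓ
  have hrN : ¬ r ∣ p := fun h => hrp ((Nat.prime_dvd_prime_iff_eq hr hp).mp h)
  have m14 := heckeTLin_mem_intLattice (N := p) 14 (by norm_num) hr hrN F1 hFmem
  have m12 := heckeTLin_mem_intLattice (N := p) 12 (by norm_num) hr hrN Dp hDmem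
  refine ⟨_, ⟨⟨_, m14⟩, rfl⟩, _, ⟨⟨_, m12⟩, rfl⟩, ?_⟩
  funext n
  have c14 : coeffZ p 14 ⟨_, m14⟩ n = hT 14 r F n :=
    coeffZ_eq_of p 14 ⟨_, m14⟩ n _
      (qCoeff_heckeTLin_int 14 14 (by norm_num) (by norm_num) hr hrN F1 F hFcoef n)
  have c12 : coeffZ p 12 ⟨_, m12⟩ n = hT 12 r tau n :=
    coeffZ_eq_of p 12 ⟨_, m12⟩ n _
      (qCoeff_heckeTLin_int 12 12 (by norm_num) (by norm_num) hr hrN Dp tau hDcoef n)
  simp only [redHom, AddMonoidHom.coe_mk, ZeroHom.coe_mk, Pi.sub_apply, Pi.smul_apply,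
    smul_eq_mul, c14, c12]
  push_cast
  rfl

end

end Fermat.Agent.S16.H300

namespace Fermat.Agent.S16.H300

open UpperHalfPlane ModularForm ModularFormClass MatrixGroups CongruenceSubgroup

/-- **U2, denominator form.** If `G ∈ M₂(Γ₀(p))` has rational constant term `c₀` and integral
higher `q`-coefficients, then the denominator of `c₀` divides `24`. -/
theorem den_dvd_24 (p : ℕ) (hp : p.Prime) (G : ModularForm (Gamma0 p) 2) (c₀ : ℚ)
    (h0 : qCoeff G 0 = (c₀ : ℂ)) (hint : ∀ n, 1 ≤ n → ∃ m : ℤ, qCoeff G n = (m : ℂ)) :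
    c₀.den ∣ 24 := by
  have : NeZero p := ⟨hp.ne_zero⟩
  rw [Nat.dvd_iff_prime_pow_dvd_dvd]
  intro ℓ a hℓ hdvd
  by_cases ha : a = 0
  · subst ha; simp
  choose! m hm using hint
  -- the form `t • G`
  let G' : ModularForm (Gamma0 p) 2 := (c₀.den : ℂ) • G
  let g : ℕ → ℤ := fun n => if n = 0 then c₀.num else c₀.den * m n
  have hg : ∀ n, qCoeff G' n = (g n : ℂ) := by
    intro n
    have h1 : qCoeff G' n = (c₀.den : ℂ) * qCoeff G n := by
      unfold ModularFormClass.qCoeff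
      have : (⇑G' : ℍ → ℂ) = (c₀.den : ℂ) • ⇑G := rfl
      rw [this, ModularForm.qExpansion_smul one_pos
        (CongruenceSubgroup.one_mem_strictPeriods_Gamma0 p) (c₀.den : ℂ) G]
      simp
    rw [h1]
    by_cases hn : n = 0
    · subst hn
      simp only [g, if_true, h0]
      have := Rat.den_mul_eq_num c₀
      exact_mod_cast congrArg (fun x : ℚ => (x : ℂ)) this
    · simp only [g, hn, if_false]
      rw [hm n (Nat.one_le_iff_ne_zero.mpr hn)]
      push_cast
      ring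
  refine prime_pow_dvd_24 p hp G' g hg hℓ ?_ ?_
  · -- `ℓ ∤ num`
    simp only [g, if_true]
    intro hnum
    have hℓden : ℓ ∣ c₀.den := (dvd_pow_self ℓ ha).trans hdvd
    have hcop := c₀.reduced
    have hℓnum : ℓ ∣ c₀.num.natAbs := Int.natCast_dvd.mp hnum
    have := Nat.Coprime.eq_one_of_dvd (Nat.Coprime.coprime_dvd_left hℓnum hcop) hℓden
    exact hℓ.one_lt.ne' this
  · intro n hn
    have hn0 : n ≠ 0 := Nat.one_le_iff_ne_zero.mp hn
    simp only [g, hn0, if_false]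
    exact Dvd.dvd.mul_right (Int.natCast_dvd_natCast.mpr hdvd) _

end Fermat.Agent.S16.H300
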