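import Mathlib

/-!
# S16 / WP U2 (abstract layer): the Hecke pigeonhole

"The weight of a mod `ℓ^a` modular form is well defined": if two integral `q`-series `F`
(weight `w + 2`) and `s • D` (weight `w`) are congruent modulo `ℓ^a`, where `ℓ ∤ s`,
`D = q + O(q²)`, and if the formal Hecke transforms `T_r^{(w+2)} F - s T_r^{(w)} D`
(`r` prime) only take finitely many values modulo `ℓ^a`, then `ℓ^a ∣ 24`.

Everything here is pure arithmetic of integer sequences (Mathlib only).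
-/

set_option autoImplicit false

namespace Fermat.Agent.S16.H300

/-- Formal Hecke operator of weight `w` at `r` on integer sequences:
`(T_r a)(n) = a(nr) + r^(w-1) a(n/r)`. -/
def hT (w r : ℕ) (a : ℕ → ℤ) (n : ℕ) : ℤ :=
  a (n * r) + if r ∣ n then (r : ℤ) ^ (w - 1) * a (n / r) else 0

/-- If every residue prime to `ℓ` squares to `1` modulo `ℓ^a`, then `ℓ^a ∣ 24`. -/
theorem dvd_24_of_forall_sq {ℓ a : ℕ} (hℓ : ℓ.Prime)
    (h : ∀ r₀ : ℕ, r₀.Coprime (ℓ ^ a) → ((ℓ ^ a : ℕ) : ℤ) ∣ (r₀ : ℤ) ^ 2 - 1) : ℓ ^ a ∣ 24 := by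
  by_cases h2 : ℓ = 2
  · subst h2
    have h3 := h 3 (Nat.Coprime.pow_right _ (by decide))
    have h8 : ((2 ^ a : ℕ) : ℤ) ∣ ((8 : ℕ) : ℤ) := by
      have : ((3 : ℕ) : ℤ) ^ 2 - 1 = ((8 : ℕ) : ℤ) := by norm_num
      rwa [this] at h3
    have : (2 ^ a : ℕ) ∣ 8 := Int.natCast_dvd_natCast.mp h8
    exact this.trans (by decide)
  · have hodd : Nat.Coprime 2 (ℓ ^ a) := by
      apply Nat.Coprime.pow_right
      rw [Nat.coprime_primes Nat.prime_two hℓ]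
      exact fun h' => h2 h'.symm
    have h3 := h 2 hodd
    have h3' : ((ℓ ^ a : ℕ) : ℤ) ∣ ((3 : ℕ) : ℤ) := by
      have : ((2 : ℕ) : ℤ) ^ 2 - 1 = ((3 : ℕ) : ℤ) := by norm_num
      rwa [this] at h3
    have : (ℓ ^ a : ℕ) ∣ 3 := Int.natCast_dvd_natCast.mp h3'
    exact this.trans (by decide)

/-- The key congruence: modulo `m`, `T_r^{(w+2)} F - s T_r^{(w)} D` only sees
`s r^(w-1) (r² - 1) D(n/r)`. -/
theorem hT_sub_congr {m : ℤ} {w r : ℕ} (hw : 1 ≤ w) {D F : ℕ → ℤ} {s : ℤ}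
    (hF : ∀ n, m ∣ F n - s * D n) (n : ℕ) :
    m ∣ (hT (w + 2) r F n - s * hT w r D n) -
      (if r ∣ n then s * (r : ℤ) ^ (w - 1) * ((r : ℤ) ^ 2 - 1) * D (n / r) else 0) := by
  unfold hT
  by_cases hrn : r ∣ n
  · simp only [hrn, if_true]
    have e : (w + 2 - 1 : ℕ) = (w - 1) + 2 := by omega
    rw [e]
    have h1 := hF (n * r)
    have h2 := hF (n / r)
    have : (F (n * r) + (r : ℤ) ^ (w - 1 + 2) * F (n / r) -
        s * (D (n * r) + (r : ℤ) ^ (w - 1) * D (n / r))) -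
        s * (r : ℤ) ^ (w - 1) * ((r : ℤ) ^ 2 - 1) * D (n / r) =
        (F (n * r) - s * D (n * r)) + (r : ℤ) ^ (w - 1 + 2) * (F (n / r) - s * D (n / r)) := by
      ring
    rw [this]
    exact dvd_add h1 (Dvd.dvd.mul_left h2 _)
  · simp only [hrn, if_false, add_zero, sub_zero]
    exact hF (n * r)

/-- **Hecke pigeonhole.** -/
theorem pigeonhole {ℓ a : ℕ} (hℓ : ℓ.Prime) (p : ℕ) (w : ℕ) (hw : 1 ≤ w)
    (D F : ℕ → ℤ) (s : ℤ) (hs : ¬ (ℓ : ℤ) ∣ s)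
    (hD1 : D 1 = 1)
    (hF : ∀ n, ((ℓ ^ a : ℕ) : ℤ) ∣ F n - s * D n)
    (𝓛 : Set (ℕ → ZMod (ℓ ^ a))) (h𝓛 : 𝓛.Finite)
    (hmem : ∀ r : ℕ, r.Prime → r ≠ p → r ≠ ℓ →
      (fun n => ((hT (w + 2) r F n - s * hT w r D n : ℤ) : ZMod (ℓ ^ a))) ∈ 𝓛) :
    ℓ ^ a ∣ 24 := by
  by_contra h24
  have ha : a ≠ 0 := by
    rintro rfl
    exact h24 (by simp)
  -- a residue `r₀` prime to `ℓ` with `r₀² ≢ 1`
  obtain ⟨r₀, hr₀c, hr₀⟩ : ∃ r₀ : ℕ, r₀.Coprime (ℓ ^ a) ∧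
      ¬ ((ℓ ^ a : ℕ) : ℤ) ∣ (r₀ : ℤ) ^ 2 - 1 := by
    by_contra hcon
    push Not at hcon
    exact h24 (dvd_24_of_forall_sq hℓ hcon)
  have hm0 : ℓ ^ a ≠ 0 := pow_ne_zero _ hℓ.ne_zero
  -- infinitely many primes `r ≡ r₀ mod ℓ^a`, `r ≠ p`
  have hinf : Set.Infinite ({r : ℕ | r.Prime ∧ r ≡ r₀ [MOD ℓ ^ a]} \ {p}) :=
    (Nat.infinite_setOfPred_prime_and_modEq hm0 hr₀c).sdiff (Set.finite_singleton p)
  set φ : ℕ → (ℕ → ZMod (ℓ ^ a)) := fun r n =>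
    ((hT (w + 2) r F n - s * hT w r D n : ℤ) : ZMod (ℓ ^ a)) with hφ
  -- facts about a good prime `r`
  have hgood : ∀ r ∈ ({r : ℕ | r.Prime ∧ r ≡ r₀ [MOD ℓ ^ a]} \ {p}),
      r.Prime ∧ r ≠ p ∧ r ≠ ℓ ∧ ¬ ((ℓ ^ a : ℕ) : ℤ) ∣ s * (r : ℤ) ^ (w - 1) * ((r : ℤ) ^ 2 - 1) := by
    rintro r ⟨⟨hrp, hrmod⟩, hrne⟩
    have hrne' : r ≠ p := by simpa using hrne
    -- `r` is prime to `ℓ`
    have hrc : r.Coprime (ℓ ^ a) := by
      have := hrmod.gcd_eq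
      rw [Nat.Coprime, this]
      exact hr₀c
    have hrℓ : r ≠ ℓ := by
      rintro rfl
      have : r.Coprime r := Nat.Coprime.coprime_dvd_right (dvd_pow_self r ha) hrc
      rw [Nat.coprime_self] at this
      exact hrp.one_lt.ne' this
    refine ⟨hrp, hrne', hrℓ, ?_⟩
    intro hdvd
    -- `s r^(w-1)` is prime to `ℓ^a`
    have hcop_r : IsCoprime ((ℓ ^ a : ℕ) : ℤ) ((r : ℤ) ^ (w - 1)) := by
      apply IsCoprime.pow_right
      exact (Nat.isCoprime_iff_coprime.mpr hrc.symm)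
    have hcop_s : IsCoprime ((ℓ ^ a : ℕ) : ℤ) s := by
      push_cast
      apply IsCoprime.pow_left
      have hprime : Prime (ℓ : ℤ) := Nat.prime_iff_prime_int.mp hℓ
      exact (Prime.coprime_iff_not_dvd hprime).mpr hs
    have hcop : IsCoprime ((ℓ ^ a : ℕ) : ℤ) (s * (r : ℤ) ^ (w - 1)) := hcop_s.mul_right hcop_r
    have h1 : ((ℓ ^ a : ℕ) : ℤ) ∣ (r : ℤ) ^ 2 - 1 := hcop.dvd_of_dvd_mul_left hdvd
    -- transfer from `r` to `r₀`
    have h2 : ((ℓ ^ a : ℕ) : ℤ) ∣ (r : ℤ) - (r₀ : ℤ) := by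
      have := (Int.natCast_modEq_iff.mpr hrmod).symm.dvd
      simpa using this
    have h3 : ((ℓ ^ a : ℕ) : ℤ) ∣ (r₀ : ℤ) ^ 2 - 1 := by
      have : (r₀ : ℤ) ^ 2 - 1 = ((r : ℤ) ^ 2 - 1) - ((r : ℤ) - r₀) * ((r : ℤ) + r₀) := by ring
      rw [this]
      exact dvd_sub h1 (Dvd.dvd.mul_right h2 _)
    exact hr₀ h3
  -- values of `φ r`
  have hval : ∀ r n : ℕ, φ r n =
      (((if r ∣ n then s * (r : ℤ) ^ (w - 1) * ((r : ℤ) ^ 2 - 1) * D (n / r) else 0 : ℤ)) :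
        ZMod (ℓ ^ a)) := by
    intro r n
    have := hT_sub_congr (m := ((ℓ ^ a : ℕ) : ℤ)) (w := w) (r := r) hw hF n
    rw [hφ]
    exact (ZMod.intCast_eq_intCast_iff_dvd_sub _ _ _).mpr (by
      have h' := this
      rw [← neg_sub] at h'
      exact (dvd_neg.mp h'))
  -- `φ` maps the infinite set into the finite set `𝓛`, injectively
  have hmaps : Set.MapsTo φ ({r : ℕ | r.Prime ∧ r ≡ r₀ [MOD ℓ ^ a]} \ {p}) 𝓛 := by
    intro r hr
    obtain ⟨hrp, hrne, hrℓ, -⟩ := hgood r hr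
    exact hmem r hrp hrne hrℓ
  have hinj : Set.InjOn φ ({r : ℕ | r.Prime ∧ r ≡ r₀ [MOD ℓ ^ a]} \ {p}) := by
    -- it suffices to treat `r < r'`
    have key : ∀ r ∈ ({r : ℕ | r.Prime ∧ r ≡ r₀ [MOD ℓ ^ a]} \ {p}),
        ∀ r' ∈ ({r : ℕ | r.Prime ∧ r ≡ r₀ [MOD ℓ ^ a]} \ {p}), r < r' → φ r ≠ φ r' := by
      intro r hr r' hr' hlt heq
      obtain ⟨hrp, -, -, hnd⟩ := hgood r hr
      have h1 := congrFun heq r
      rw [hval r r, hval r' r] at h1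
      have hr'r : ¬ r' ∣ r := fun h => by
        have := Nat.le_of_dvd hrp.pos h
        omega
      simp only [dvd_refl, if_true, hr'r, if_false, Nat.div_self hrp.pos, hD1, mul_one,
        Int.cast_zero] at h1
      exact hnd ((ZMod.intCast_zmod_eq_zero_iff_dvd _ _).mp h1)
    intro r hr r' hr' heq
    by_contra hne
    rcases Nat.lt_or_gt_of_ne hne with h | h
    · exact key r hr r' hr' h heq
    · exact key r' hr' r hr h heq.symm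
  exact hinf (Set.Finite.of_injOn hmaps hinj h𝓛)

end Fermat.Agent.S16.H300
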